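import Mathlib
import Fermat.Agent.LT.H556.A0

/-!
# Row LT, tower A2, leaf A2.13 (helper751): continuity of families supported at one infinite place

OFF-MAIN.  Imports Mathlib + `LT/H556/A0.lean` (byte-identical copy of helper556@0fa0be5a0).

A family `Y : X → GL₂(𝔸_K)` of elements supported at ONE infinite place `w` whose component at `w`
(transported to `ℂ`) is continuous with determinant `1` is continuous for the topology of `A0.G K`
(units of the matrix ring of the adeles).  In particular the Euler-angle family of
`A0.MeanValueComplex` is continuous, although it is only given relationally.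
-/

set_option autoImplicit false

open IsDedekindDomain NumberField

noncomputable section

namespace Fermat.Agent.LT.A2.H751

open Fermat.Agent.LT.H556

variable {K : Type} [Field K] [NumberField K]

/-! ## Components as ring homomorphisms -/

/-- The component at the infinite place `w`, as a ring homomorphism. -/
def prInf751 (w : InfinitePlace K) : A0.Adl K →+* w.Completion where
  toFun x := x.1 w
  map_one' := rfl
  map_mul' _ _ := rfl
  map_zero' := rfl
  map_add' _ _ := rfl

/-- The component at the finite place `v`, as a ring homomorphism. -/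
def prFin751 (v : HeightOneSpectrum (𝓞 K)) : A0.Adl K →+* v.adicCompletion K where
  toFun x := x.2 v
  map_one' := rfl
  map_mul' _ _ := rfl
  map_zero' := rfl
  map_add' _ _ := rfl

/-- The component at the infinite place `w`, transported to `ℂ`. -/
def cInf751 (w : InfinitePlace K) : A0.Adl K →+* ℂ :=
  (InfinitePlace.Completion.extensionEmbedding w).comp (prInf751 w)

theorem infComp_eq_map751 (w : InfinitePlace K) (g : A0.G K) :
    A0.infComp w g = (g : Matrix (Fin 2) (Fin 2) (A0.Adl K)).map (cInf751 w) := rfl

theorem finComp_eq_map751 (v : HeightOneSpectrum (𝓞 K)) (g : A0.G K) :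
    A0.finComp v g = (g : Matrix (Fin 2) (Fin 2) (A0.Adl K)).map (prFin751 v) := rfl

theorem infComp_mul751 (w : InfinitePlace K) (g h : A0.G K) :
    A0.infComp w (g * h) = A0.infComp w g * A0.infComp w h := by
  rw [infComp_eq_map751, infComp_eq_map751, infComp_eq_map751, Units.val_mul, Matrix.map_mul]

theorem infComp_one751 (w : InfinitePlace K) : A0.infComp w (1 : A0.G K) = 1 := by
  rw [infComp_eq_map751, Units.val_one, Matrix.map_one _ (map_zero _) (map_one _)]

theorem finComp_mul751 (v : HeightOneSpectrum (𝓞 K)) (g h : A0.G K) :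
    A0.finComp v (g * h) = A0.finComp v g * A0.finComp v h := by
  rw [finComp_eq_map751, finComp_eq_map751, finComp_eq_map751, Units.val_mul, Matrix.map_mul]

theorem finComp_one751 (v : HeightOneSpectrum (𝓞 K)) : A0.finComp v (1 : A0.G K) = 1 := by
  rw [finComp_eq_map751, Units.val_one, Matrix.map_one _ (map_zero _) (map_one _)]

/-- The matrix of `g` at the infinite place `w` (in the completion). -/
def mInf751 (w : InfinitePlace K) (g : A0.G K) : Matrix (Fin 2) (Fin 2) w.Completion :=
  (g : Matrix (Fin 2) (Fin 2) (A0.Adl K)).map (prInf751 w)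

theorem mInf_mul751 (w : InfinitePlace K) (g h : A0.G K) :
    mInf751 w (g * h) = mInf751 w g * mInf751 w h := by
  rw [mInf751, mInf751, mInf751, Units.val_mul, Matrix.map_mul]

theorem mInf_one751 (w : InfinitePlace K) : mInf751 w (1 : A0.G K) = 1 := by
  rw [mInf751, Units.val_one, Matrix.map_one _ (map_zero _) (map_one _)]

theorem trivAtInf_iff751 (w : InfinitePlace K) (g : A0.G K) :
    A0.TrivAtInf w g ↔ mInf751 w g = 1 := by
  constructor
  · intro h
    exact Matrix.ext fun i j => h i j
  · intro h i j
    exact congrFun (congrFun h i) j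

theorem trivAtInf_inv751 (w : InfinitePlace K) (g : A0.G K) (h : A0.TrivAtInf w g) :
    A0.TrivAtInf w g⁻¹ := by
  rw [trivAtInf_iff751] at h ⊢
  have h1 : mInf751 w g⁻¹ * mInf751 w g = 1 := by
    rw [← mInf_mul751, inv_mul_cancel, mInf_one751]
  rwa [h, mul_one] at h1

theorem trivAtFin_inv751 (v : HeightOneSpectrum (𝓞 K)) (g : A0.G K) (h : A0.TrivAtFin v g) :
    A0.TrivAtFin v g⁻¹ := by
  unfold A0.TrivAtFin at h ⊢
  have h1 : A0.finComp v g⁻¹ * A0.finComp v g = 1 := by
    rw [← finComp_mul751, inv_mul_cancel, finComp_one751]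
  rwa [h, mul_one] at h1

theorem isLocalAtInf_inv751 (w : InfinitePlace K) (g : A0.G K) (h : A0.IsLocalAtInf w g) :
    A0.IsLocalAtInf w g⁻¹ :=
  ⟨fun w' hw' => trivAtInf_inv751 w' g (h.1 w' hw'), fun v => trivAtFin_inv751 v g (h.2 v)⟩

theorem infComp_inv751 (w : InfinitePlace K) (g : A0.G K) (hdet : (A0.infComp w g).det = 1) :
    A0.infComp w g⁻¹ = (A0.infComp w g).adjugate := by
  have h1 : A0.infComp w g⁻¹ * A0.infComp w g = 1 := by
    rw [← infComp_mul751, inv_mul_cancel, infComp_one751]
  have h2 : (A0.infComp w g)⁻¹ = A0.infComp w g⁻¹ := Matrix.inv_eq_left_inv h1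
  rw [← h2, Matrix.inv_def, hdet, Ring.inverse_one, one_smul]

/-! ## Continuity -/

theorem one_apply_snd751 (i j : Fin 2) (v : HeightOneSpectrum (𝓞 K)) :
    ((1 : Matrix (Fin 2) (Fin 2) (A0.Adl K)) i j).2 v
      = (1 : Matrix (Fin 2) (Fin 2) (v.adicCompletion K)) i j := by
  by_cases h : i = j
  · subst h
    rw [Matrix.one_apply_eq, Matrix.one_apply_eq]
    rfl
  · rw [Matrix.one_apply_ne h, Matrix.one_apply_ne h]
    rfl

/-- The matrix of a family supported at `w` with continuous component at `w` is continuous. -/
theorem continuous_val_of_local751 {X : Type*} [TopologicalSpace X] (w : InfinitePlace K)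
    (Y : X → A0.G K) (hloc : ∀ x, A0.IsLocalAtInf w (Y x))
    (hcont : Continuous fun x => A0.infComp w (Y x)) :
    Continuous fun x => (Y x : Matrix (Fin 2) (Fin 2) (A0.Adl K)) := by
  refine continuous_matrix fun i j => ?_
  have hfst : Continuous fun x => ((Y x : Matrix (Fin 2) (Fin 2) (A0.Adl K)) i j).1 := by
    refine continuous_pi fun w' => ?_
    by_cases hw : w' = w
    · subst hw
      have hi := (InfinitePlace.Completion.isometry_extensionEmbedding w').isUniformInducing.isInducing
      rw [hi.continuous_iff]
      exact (continuous_apply_apply i j).comp hcont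
    · have h1 : (fun x => ((Y x : Matrix (Fin 2) (Fin 2) (A0.Adl K)) i j).1 w')
          = fun _ => (1 : Matrix (Fin 2) (Fin 2) w'.Completion) i j :=
        funext fun x => (hloc x).1 w' hw i j
      rw [h1]
      exact continuous_const
  have hsnd : Continuous fun x => ((Y x : Matrix (Fin 2) (Fin 2) (A0.Adl K)) i j).2 := by
    have h1 : (fun x => ((Y x : Matrix (Fin 2) (Fin 2) (A0.Adl K)) i j).2)
        = fun _ => ((1 : Matrix (Fin 2) (Fin 2) (A0.Adl K)) i j).2 := by
      funext x
      refine DFunLike.ext _ _ fun v => ?_
      rw [one_apply_snd751]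
      exact congrFun (congrFun ((hloc x).2 v) i) j
    rw [h1]
    exact continuous_const
  exact hfst.prodMk hsnd

/-- **Continuity criterion.**  A family of elements of `GL₂(𝔸_K)` supported at the infinite place
`w` whose component at `w` is continuous of determinant `1` is continuous. -/
theorem continuous_of_local751 {X : Type*} [TopologicalSpace X] (w : InfinitePlace K)
    (Y : X → A0.G K) (hloc : ∀ x, A0.IsLocalAtInf w (Y x))
    (hcont : Continuous fun x => A0.infComp w (Y x))
    (hdet : ∀ x, (A0.infComp w (Y x)).det = 1) : Continuous Y := by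
  rw [Units.continuous_iff]
  refine ⟨continuous_val_of_local751 w Y hloc hcont, ?_⟩
  have h2 : (fun x => A0.infComp w (Y x)⁻¹) = fun x => (A0.infComp w (Y x)).adjugate :=
    funext fun x => infComp_inv751 w (Y x) (hdet x)
  exact continuous_val_of_local751 w (fun x => (Y x)⁻¹)
    (fun x => isLocalAtInf_inv751 w _ (hloc x)) (by rw [h2]; exact hcont.matrix_adjugate)

end Fermat.Agent.LT.A2.H751

end
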