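import Mathlib
import Fermat.Agent.LT.A2.Theta
import Fermat.Agent.LT.A2.H751.LocalCont

/-!
# Row LT, tower A2, leaf A2.13 `MeanOfWhitC` (helper751)

OFF-MAIN.  `meanOfWhitC751 : A2.MeanOfWhitC`, VERBATIM vs `LT/A2/Theta.lean` (helper950@c68f91cb0).

The mean-value property at a complex place passes from the Whittaker function `W` to the sum
`φ(g) = ∑_{α ∈ K^×} W(diag(α,1) g)` of the Fourier--Whittaker expansion: the Euler-angle family is
continuous (`LocalCont.lean`), the sphere `{g · Y α β}` is compact, the series is normally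
convergent on it, and the series is integrated term by term (dominated convergence, twice).
-/

set_option autoImplicit false

open IsDedekindDomain NumberField AutomorphicForm MeasureTheory
open scoped MatrixGroups

noncomputable section

namespace Fermat.Agent.LT.A2.H751

open Fermat.Agent.LT.H556 Fermat.Agent.LT.A2

/-! ## The Euler-angle matrices -/

theorem det_rotZ751 (α : ℝ) : (A0.rotZ α).det = 1 := by
  rw [A0.rotZ, Matrix.det_fin_two_of, mul_zero, sub_zero, ← Complex.exp_add, add_neg_cancel,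
    Complex.exp_zero]

theorem det_rotY751 (β : ℝ) : (A0.rotY β).det = 1 := by
  rw [A0.rotY, Matrix.det_fin_two_of]
  have h := Real.cos_sq_add_sin_sq (β / 2)
  have h2 : ((Real.cos (β / 2) : ℝ) : ℂ) * ((Real.cos (β / 2) : ℝ) : ℂ)
      - -((Real.sin (β / 2) : ℝ) : ℂ) * ((Real.sin (β / 2) : ℝ) : ℂ)
      = ((Real.cos (β / 2) ^ 2 + Real.sin (β / 2) ^ 2 : ℝ) : ℂ) := by
    push_cast
    ring
  rw [h2, h, Complex.ofReal_one]

theorem det_torus751 (d : ℝ) : (A0.torus d).det = 1 := by
  rw [A0.torus, Matrix.det_fin_two_of, mul_zero, sub_zero, ← Complex.ofReal_mul, ← Real.exp_add,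
    add_neg_cancel, Real.exp_zero, Complex.ofReal_one]

theorem det_euler751 (α β d : ℝ) : (A0.rotZ α * A0.rotY β * A0.torus d).det = 1 := by
  rw [Matrix.det_mul, Matrix.det_mul, det_rotZ751, det_rotY751, det_torus751, mul_one, mul_one]

theorem continuous_rotZ751 : Continuous A0.rotZ := by
  refine continuous_matrix fun i j => ?_
  fin_cases i <;> fin_cases j <;> simp [A0.rotZ] <;> fun_prop

theorem continuous_rotY751 : Continuous A0.rotY := by
  refine continuous_matrix fun i j => ?_
  fin_cases i <;> fin_cases j <;> simp [A0.rotY] <;> fun_prop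

theorem continuous_euler751 (d : ℝ) :
    Continuous fun p : ℝ × ℝ => A0.rotZ p.1 * A0.rotY p.2 * A0.torus d :=
  ((continuous_rotZ751.comp continuous_fst).matrix_mul
    (continuous_rotY751.comp continuous_snd)).matrix_mul continuous_const

variable {K : Type} [Field K] [NumberField K]

/-- The Euler-angle family of `A0.MeanValueComplex` is continuous. -/
theorem continuous_sphere751 (w : InfinitePlace K) (d : ℝ) (Y : ℝ → ℝ → A0.G K)
    (hY : ∀ α β : ℝ, A0.IsLocalAtInf w (Y α β) ∧
      A0.infComp w (Y α β) = A0.rotZ α * A0.rotY β * A0.torus d) :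
    Continuous fun p : ℝ × ℝ => Y p.1 p.2 := by
  refine continuous_of_local751 w _ (fun p => (hY p.1 p.2).1) ?_ ?_
  · have h : (fun p : ℝ × ℝ => A0.infComp w (Y p.1 p.2))
        = fun p : ℝ × ℝ => A0.rotZ p.1 * A0.rotY p.2 * A0.torus d :=
      funext fun p => (hY p.1 p.2).2
    rw [h]
    exact continuous_euler751 d
  · intro p
    rw [(hY p.1 p.2).2]
    exact det_euler751 _ _ _

/-! ## A rational diagonal parametrisation -/

/-- `diag(α, 1)`, `α ∈ K^×`, in `GL₂(𝔸_K)`. -/
def ratDiag751 (α : Kˣ) : A0.G K :=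
  ⟨!![algebraMap K (A0.Adl K) (α : K), 0; 0, 1],
   !![algebraMap K (A0.Adl K) ((α⁻¹ : Kˣ) : K), 0; 0, 1],
   by
    rw [Matrix.mul_fin_two]
    simp only [mul_zero, zero_mul, add_zero, zero_add, mul_one, ← map_mul,
      Units.mul_inv, map_one]
    exact Matrix.one_fin_two.symm,
   by
    rw [Matrix.mul_fin_two]
    simp only [mul_zero, zero_mul, add_zero, zero_add, mul_one, ← map_mul,
      Units.inv_mul, map_one]
    exact Matrix.one_fin_two.symm⟩

theorem isRatDiag751 : IsRatDiag (ratDiag751 (K := K)) := fun _ => rfl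

theorem countable_numberField751 (K : Type) [Field K] [NumberField K] : Countable K := by
  rw [← Set.countable_univ_iff]
  have h := Algebraic.countable ℚ K
  have h2 : {x : K | IsAlgebraic ℚ x} = Set.univ :=
    Set.eq_univ_of_forall fun x => Algebra.IsAlgebraic.isAlgebraic x
  rwa [h2] at h

theorem countable_units751 (K : Type) [Field K] [NumberField K] : Countable Kˣ :=
  haveI := countable_numberField751 K
  Units.val_injective.countable

/-! ## The leaf -/

/-- Pointwise form of the expansion: `∑_α W(diag(α,1) h)` has sum `φ(h)`. -/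
theorem hasSum_whit751 {ψ : A0.Adl K → ℂ} {φ W : A0.G K → ℂ} (hW : IsWhitExp ψ φ W)
    (h : A0.G K) : HasSum (fun a : Kˣ => W (ratDiag751 a * h)) (φ h) := by
  obtain ⟨b, hb, hbd⟩ := hW.loc_summable {h} isCompact_singleton
  have hs : Summable fun a : Kˣ => W (ratDiag751 a * h) :=
    Summable.of_norm_bounded hb fun a => hbd _ isRatDiag751 a h rfl
  rw [hW.expansion _ isRatDiag751 h]
  exact hs.hasSum

/-- **A2.13 MEAN-OF-WHIT.** -/
theorem meanOfWhitC751 : MeanOfWhitC := by
  intro K _ _ π ψ φ W hP w hw d hd Y hY g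
  have := countable_units751 K
  have hYc := continuous_sphere751 w d Y hY
  -- the compact sphere
  set C : Set (A0.G K) := (fun p : ℝ × ℝ => g * Y p.1 p.2) ''
    (Set.Icc 0 (2 * Real.pi) ×ˢ Set.Icc 0 Real.pi) with hC
  have hCc : IsCompact C :=
    (isCompact_Icc.prod isCompact_Icc).image (continuous_const.mul hYc)
  obtain ⟨b, hb, hbd⟩ := hP.whit.loc_summable C hCc
  have hpi : (0 : ℝ) ≤ Real.pi := Real.pi_pos.le
  have h2pi : (0 : ℝ) ≤ 2 * Real.pi := by positivity
  -- the terms
  set F : Kˣ → ℝ → ℝ → ℂ := fun a α β =>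
    W (ratDiag751 a * g * Y α β) * ((Real.sin β : ℝ) : ℂ) with hF
  have hFc : ∀ a, Continuous fun p : ℝ × ℝ => F a p.1 p.2 := fun a =>
    (hP.W_cont.comp (continuous_const.mul hYc)).mul
      (Complex.continuous_ofReal.comp (Real.continuous_sin.comp continuous_snd))
  have hFb : ∀ a, ∀ α ∈ Set.Icc 0 (2 * Real.pi), ∀ β ∈ Set.Icc 0 Real.pi,
      ‖F a α β‖ ≤ b a := by
    intro a α hα β hβ
    have h1 : ‖W (ratDiag751 a * g * Y α β)‖ ≤ b a := by
      rw [mul_assoc]
      exact hbd _ isRatDiag751 a _ ⟨(α, β), ⟨hα, hβ⟩, rfl⟩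
    have h2 : ‖((Real.sin β : ℝ) : ℂ)‖ ≤ 1 := by
      rw [Complex.norm_real]
      exact Real.abs_sin_le_one β
    calc ‖F a α β‖ = ‖W (ratDiag751 a * g * Y α β)‖ * ‖((Real.sin β : ℝ) : ℂ)‖ := norm_mul _ _
      _ ≤ b a * 1 := mul_le_mul h1 h2 (norm_nonneg _) ((norm_nonneg _).trans h1)
      _ = b a := mul_one _
  have hlim : ∀ α β, HasSum (fun a => F a α β)
      (φ (g * Y α β) * ((Real.sin β : ℝ) : ℂ)) := by
    intro α β
    have h1 := hasSum_whit751 hP.whit (g * Y α β)
    simp only [← mul_assoc] at h1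
    exact h1.mul_right _
  -- inner integrals
  have hinner : ∀ α ∈ Set.Icc 0 (2 * Real.pi),
      HasSum (fun a => ∫ β in (0 : ℝ)..Real.pi, F a α β)
        (∫ β in (0 : ℝ)..Real.pi, φ (g * Y α β) * ((Real.sin β : ℝ) : ℂ)) := by
    intro α hα
    refine intervalIntegral.hasSum_integral_of_dominated_convergence (fun a _ => b a)
      (fun a => ?_) (fun a => ?_) ?_ ?_ ?_
    · exact ((hFc a).comp (Continuous.prodMk_right α)).aestronglyMeasurable
    · refine Filter.Eventually.of_forall fun β hβ => ?_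
      rw [Set.uIoc_of_le hpi] at hβ
      exact hFb a α hα β ⟨hβ.1.le, hβ.2⟩
    · exact Filter.Eventually.of_forall fun _ _ => hb
    · exact intervalIntegrable_const
    · exact Filter.Eventually.of_forall fun β _ => hlim α β
  -- outer integral
  have houter : HasSum (fun a => ∫ α in (0 : ℝ)..(2 * Real.pi), ∫ β in (0 : ℝ)..Real.pi, F a α β)
      (∫ α in (0 : ℝ)..(2 * Real.pi), ∫ β in (0 : ℝ)..Real.pi,
        φ (g * Y α β) * ((Real.sin β : ℝ) : ℂ)) := by
    refine intervalIntegral.hasSum_integral_of_dominated_convergence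
      (fun a _ => b a * Real.pi) (fun a => ?_) (fun a => ?_) ?_ ?_ ?_
    · have hc : Continuous fun α => ∫ β in (0 : ℝ)..Real.pi, F a α β :=
        intervalIntegral.continuous_parametric_intervalIntegral_of_continuous' (hFc a) 0 Real.pi
      exact hc.aestronglyMeasurable
    · refine Filter.Eventually.of_forall fun α hα => ?_
      rw [Set.uIoc_of_le h2pi] at hα
      have h1 := intervalIntegral.norm_integral_le_of_norm_le_const
        (a := 0) (b := Real.pi) (C := b a) (f := fun β => F a α β) (fun β hβ => by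
          rw [Set.uIoc_of_le hpi] at hβ
          exact hFb a α ⟨hα.1.le, hα.2⟩ β ⟨hβ.1.le, hβ.2⟩)
      rwa [sub_zero, abs_of_nonneg hpi] at h1
    · exact Filter.Eventually.of_forall fun _ _ => hb.mul_right _
    · exact intervalIntegrable_const
    · refine Filter.Eventually.of_forall fun α hα => ?_
      rw [Set.uIoc_of_le h2pi] at hα
      exact hinner α ⟨hα.1.le, hα.2⟩
  -- each term by the mean-value property of `W`
  have hterm : ∀ a : Kˣ, (∫ α in (0 : ℝ)..(2 * Real.pi), ∫ β in (0 : ℝ)..Real.pi, F a α β)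
      = ((4 * Real.pi * (d / Real.sinh d) : ℝ) : ℂ) * W (ratDiag751 a * g) := fun a =>
    hP.W_mean w hw d hd Y hY (ratDiag751 a * g)
  simp only [hterm] at houter
  exact houter.unique ((hasSum_whit751 hP.whit g).mul_left _)

end Fermat.Agent.LT.A2.H751

end
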