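import Mathlib
import Fermat.Agent.LT.A2.H751.LocalCont
import Fermat.Agent.LT.A2.H546.Torus

/-!
# Row LT, tower A2, pre-leaf TORUS-MEAS (helper751): adelic Hilbert 90 in torus coordinates

OFF-MAIN.  Imports Mathlib + `LT/H556/A0.lean`, `LT/A2/Kernel.lean` (helper950) and
`LT/A2/H546/Torus.lean` (helper546), byte-identical copies.

For `m = a + b ω ∈ T¹(𝔸_K)` (`ω² - t ω + n = 0`, `t² - 4n ≠ 0`) there is `x ∈ T(𝔸_K)` with
`x² = N(x) · m`, i.e. `m = x / σ(x)`.  NO local case distinction (split / inert / ramified):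

    x = (1 - e)(1 + m) + e (ω + m σ(ω)),      e an idempotent adele,
    N(1 + m) = A₁ = 2 + 2a + t b,             N(ω + m σ(ω)) = A₂ = a (t² - 4n) + n A₁,

and `A₁`, `A₂` never vanish together at a place (`h90_ne_zero751`), and if `A₁` is not a unit at a
finite place where everything is integral and `t² - 4n` is a unit, then `A₂` is a unit
(`h90_unit751`).
-/

set_option autoImplicit false

open IsDedekindDomain NumberField

noncomputable section

namespace Fermat.Agent.LT.A2.H751

open Fermat.Agent.LT.H556 Fermat.Agent.LT.A2 Fermat.Agent.LT.A2.H546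

/-! ## The two local lemmas -/

/-- Over a field: if `N(1 + m) = 0` then `N(ω + m σ(ω)) ≠ 0`. -/
theorem h90_ne_zero751 {F : Type*} [Field F] (t n a b : F) (hd : t ^ 2 - 4 * n ≠ 0)
    (hN : a ^ 2 + t * a * b + n * b ^ 2 = 1) (h1 : 2 + 2 * a + t * b = 0) :
    a * (t ^ 2 - 4 * n) + n * (2 + 2 * a + t * b) ≠ 0 := by
  rw [h1, mul_zero, add_zero]
  intro h
  have ha : a = 0 := by
    rcases mul_eq_zero.mp h with h | h
    · exact h
    · exact absurd h hd
  subst ha
  have htb : t * b = -2 := by linear_combination h1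
  have hnb : n * b ^ 2 = 1 := by linear_combination hN
  have h0 : (t ^ 2 - 4 * n) * b ^ 2 = 0 := by
    linear_combination (t * b - 2) * htb - 4 * hnb
  have hb : b = 0 := by
    rcases mul_eq_zero.mp h0 with h | h
    · exact absurd h hd
    · exact pow_eq_zero_iff (by norm_num) |>.mp h
  rw [hb] at hnb
  simp at hnb

/-- Over a valued field: if everything is integral, the discriminant is a unit and `N(1 + m)` is
not a unit, then `N(ω + m σ(ω))` is a unit. -/
theorem h90_unit751 {F : Type*} [Field F] {Γ₀ : Type*} [LinearOrderedCommGroupWithZero Γ₀]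
    (v : Valuation F Γ₀) (t n a b : F) (ht : v t ≤ 1) (hn : v n ≤ 1) (ha : v a ≤ 1)
    (hb : v b ≤ 1) (hd : v (t ^ 2 - 4 * n) = 1)
    (hN : a ^ 2 + t * a * b + n * b ^ 2 = 1) (h1 : v (2 + 2 * a + t * b) < 1) :
    v (a * (t ^ 2 - 4 * n) + n * (2 + 2 * a + t * b)) = 1 := by
  have h2 : v (2 : F) ≤ 1 := by
    have : (2 : F) = 1 + 1 := by norm_num
    rw [this]
    exact v.map_add_le (le_of_eq v.map_one) (le_of_eq v.map_one)
  have h4 : v (4 : F) ≤ 1 := by
    have : (4 : F) = 2 * 2 := by norm_num
    rw [this, v.map_mul]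
    exact mul_le_one' h2 h2
  have htb : v (t * b) ≤ 1 := by
    rw [v.map_mul]; exact mul_le_one' ht hb
  -- `n A₁` is small
  have hnA : v (n * (2 + 2 * a + t * b)) < 1 := by
    rw [v.map_mul]
    calc v n * v (2 + 2 * a + t * b) ≤ 1 * v (2 + 2 * a + t * b) :=
          mul_le_mul' hn le_rfl
      _ = v (2 + 2 * a + t * b) := one_mul _
      _ < 1 := h1
  -- `a` is a unit
  have hau : v a = 1 := by
    by_contra hne
    have hlt : v a < 1 := lt_of_le_of_ne ha hne
    have h2a : v (2 * a) < 1 := by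
      rw [v.map_mul]
      calc v 2 * v a ≤ 1 * v a := mul_le_mul' h2 le_rfl
        _ = v a := one_mul _
        _ < 1 := hlt
    have hs : v (t * b + 2) < 1 := by
      have : t * b + 2 = (2 + 2 * a + t * b) - 2 * a := by ring
      rw [this]
      exact lt_of_le_of_lt (v.map_sub _ _) (max_lt h1 h2a)
    have hatb : v (a + t * b) ≤ 1 := v.map_add_le ha htb
    have hu : v (a * (a + t * b)) < 1 := by
      rw [v.map_mul]
      calc v a * v (a + t * b) ≤ v a * 1 := mul_le_mul' le_rfl hatb
        _ = v a := mul_one _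
        _ < 1 := hlt
    have hid : (t ^ 2 - 4 * n) * b ^ 2 = (t * b + 2) * (t * b - 2) + 4 * (a * (a + t * b)) := by
      linear_combination (-4 : F) * hN
    have htb2 : v (t * b - 2) ≤ 1 := by
      exact le_trans (v.map_sub _ _) (max_le htb h2)
    have hdb : v ((t ^ 2 - 4 * n) * b ^ 2) < 1 := by
      rw [hid]
      refine lt_of_le_of_lt (v.map_add _ _) (max_lt ?_ ?_)
      · rw [v.map_mul]
        calc v (t * b + 2) * v (t * b - 2) ≤ v (t * b + 2) * 1 := mul_le_mul' le_rfl htb2
          _ = v (t * b + 2) := mul_one _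
          _ < 1 := hs
      · rw [v.map_mul]
        calc v 4 * v (a * (a + t * b)) ≤ 1 * v (a * (a + t * b)) := mul_le_mul' h4 le_rfl
          _ = v (a * (a + t * b)) := one_mul _
          _ < 1 := hu
    rw [v.map_mul, hd, one_mul, v.map_pow] at hdb
    have hb1 : v b < 1 := by
      by_contra hcon
      have hbe : v b = 1 := le_antisymm hb (not_lt.mp hcon)
      rw [hbe, one_pow] at hdb
      exact lt_irrefl _ hdb
    have hnb : v (n * b ^ 2) < 1 := by
      rw [v.map_mul, v.map_pow]
      calc v n * v b ^ 2 ≤ 1 * v b ^ 2 := mul_le_mul' hn le_rfl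
        _ = v b ^ 2 := one_mul _
        _ = v b * v b := sq _
        _ ≤ v b * 1 := mul_le_mul' le_rfl hb
        _ = v b := mul_one _
        _ < 1 := hb1
    have hone : n * b ^ 2 = 1 - a * (a + t * b) := by linear_combination hN
    rw [hone, v.map_one_sub_of_lt hu] at hnb
    exact lt_irrefl _ hnb
  have hmain : v (a * (t ^ 2 - 4 * n)) = 1 := by rw [v.map_mul, hau, hd, one_mul]
  rw [v.map_add_eq_of_lt_left (by rw [hmain]; exact hnA), hmain]

/-! ## Polynomial identities -/

section Poly

variable {R : Type*} [CommRing R]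

/-- The norm of `x = (1 - e) (1 + m) + e (ω + m σ(ω))`. -/
theorem h90_norm751 (t n a b e : R) (he : e * e = e)
    (hN : a ^ 2 + t * a * b + n * b ^ 2 = 1) :
    ((1 - e) * (1 + a) + e * (a * t + b * n))
        * (((1 - e) * (1 + a) + e * (a * t + b * n)) + t * ((1 - e) * b + e * (1 - a)))
      + n * ((1 - e) * b + e * (1 - a)) * ((1 - e) * b + e * (1 - a))
      = (1 - e) * (2 + 2 * a + t * b)
        + e * (a * (t ^ 2 - 4 * n) + n * (2 + 2 * a + t * b)) := by
  linear_combination
    (((a * t + b * n) - (1 + a)) ^ 2 + t * ((a * t + b * n) - (1 + a)) * ((1 - a) - b)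
      + n * ((1 - a) - b) ^ 2) * he + ((1 - e) + e * n) * hN

/-- `x² = N(x) m`, first coordinate. -/
theorem h90_sq_fst751 (t n a b e : R) (hN : a ^ 2 + t * a * b + n * b ^ 2 = 1) :
    ((1 - e) * (1 + a) + e * (a * t + b * n)) * ((1 - e) * (1 + a) + e * (a * t + b * n))
        - n * (((1 - e) * b + e * (1 - a)) * ((1 - e) * b + e * (1 - a)))
      = (((1 - e) * (1 + a) + e * (a * t + b * n))
          * (((1 - e) * (1 + a) + e * (a * t + b * n)) + t * ((1 - e) * b + e * (1 - a)))
        + n * ((1 - e) * b + e * (1 - a)) * ((1 - e) * b + e * (1 - a))) * a := by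
  linear_combination
    (-(((1 - e) * (1 + a) + e * (a * t + b * n)) * (1 - e)
      - n * ((1 - e) * b + e * (1 - a)) * e)) * hN

/-- `x² = N(x) m`, second coordinate. -/
theorem h90_sq_snd751 (t n a b e : R) (hN : a ^ 2 + t * a * b + n * b ^ 2 = 1) :
    ((1 - e) * (1 + a) + e * (a * t + b * n)) * ((1 - e) * b + e * (1 - a))
        + ((1 - e) * b + e * (1 - a)) * ((1 - e) * (1 + a) + e * (a * t + b * n))
        + t * (((1 - e) * b + e * (1 - a)) * ((1 - e) * b + e * (1 - a)))
      = (((1 - e) * (1 + a) + e * (a * t + b * n))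
          * (((1 - e) * (1 + a) + e * (a * t + b * n)) + t * ((1 - e) * b + e * (1 - a)))
        + n * ((1 - e) * b + e * (1 - a)) * ((1 - e) * b + e * (1 - a))) * b := by
  linear_combination
    (-(((1 - e) * (1 + a) + e * (a * t + b * n)) * e
      + ((1 - e) * b + e * (1 - a)) * (1 - e) + t * ((1 - e) * b + e * (1 - a)) * e)) * hN

end Poly


/-! ## Adeles by components -/

section Adelic

variable {K : Type} [Field K] [NumberField K]

/-- Two adeles with the same components are equal. -/
theorem adl_ext751 {x y : A0.Adl K} (h1 : ∀ w : InfinitePlace K, prInf751 w x = prInf751 w y)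
    (h2 : ∀ v : HeightOneSpectrum (𝓞 K), prFin751 v x = prFin751 v y) : x = y := by
  apply Prod.ext
  · funext w
    exact h1 w
  · apply RestrictedProduct.ext
    intro v
    exact h2 v

/-- The finite components of an adele are integral at almost all places. -/
theorem eventually_integral751 (x : A0.Adl K) :
    ∀ᶠ v : HeightOneSpectrum (𝓞 K) in Filter.cofinite, Valued.v (prFin751 v x) ≤ 1 := by
  have h := x.2.2
  refine h.mono fun v hv => ?_
  exact (HeightOneSpectrum.mem_adicCompletionIntegers (R := 𝓞 K) (K := K) (v := v)).mp hv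

/-- The adele with prescribed components. -/
def mkAdl751 (f : ∀ w : InfinitePlace K, w.Completion)
    (g : ∀ v : HeightOneSpectrum (𝓞 K), v.adicCompletion K)
    (hg : ∀ᶠ v : HeightOneSpectrum (𝓞 K) in Filter.cofinite, g v ∈ v.adicCompletionIntegers K) :
    A0.Adl K :=
  (f, ⟨g, hg⟩)

theorem prInf_mkAdl751 (f : ∀ w : InfinitePlace K, w.Completion)
    (g : ∀ v : HeightOneSpectrum (𝓞 K), v.adicCompletion K)
    (hg : ∀ᶠ v : HeightOneSpectrum (𝓞 K) in Filter.cofinite, g v ∈ v.adicCompletionIntegers K)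
    (w : InfinitePlace K) : prInf751 w (mkAdl751 f g hg) = f w := rfl

theorem prFin_mkAdl751 (f : ∀ w : InfinitePlace K, w.Completion)
    (g : ∀ v : HeightOneSpectrum (𝓞 K), v.adicCompletion K)
    (hg : ∀ᶠ v : HeightOneSpectrum (𝓞 K) in Filter.cofinite, g v ∈ v.adicCompletionIntegers K)
    (v : HeightOneSpectrum (𝓞 K)) : prFin751 v (mkAdl751 f g hg) = g v := rfl

/-- **Units of the adele ring**: all components are nonzero and almost all finite components
have valuation `≥ 1`. -/
theorem isUnit_adl751 (x : A0.Adl K) (h1 : ∀ w : InfinitePlace K, prInf751 w x ≠ 0)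
    (h2 : ∀ v : HeightOneSpectrum (𝓞 K), prFin751 v x ≠ 0)
    (h3 : ∀ᶠ v : HeightOneSpectrum (𝓞 K) in Filter.cofinite, 1 ≤ Valued.v (prFin751 v x)) :
    IsUnit x := by
  have hg : ∀ᶠ v : HeightOneSpectrum (𝓞 K) in Filter.cofinite,
      (prFin751 v x)⁻¹ ∈ v.adicCompletionIntegers K := by
    refine h3.mono fun v hv => ?_
    rw [HeightOneSpectrum.mem_adicCompletionIntegers, map_inv₀]
    exact inv_le_one_of_one_le₀ hv
  refine IsUnit.of_mul_eq_one (mkAdl751 (fun w => (prInf751 w x)⁻¹) (fun v => (prFin751 v x)⁻¹) hg) ?_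
  apply adl_ext751
  · intro w
    rw [map_mul, prInf_mkAdl751, map_one, mul_inv_cancel₀ (h1 w)]
  · intro v
    rw [map_mul, prFin_mkAdl751, map_one, mul_inv_cancel₀ (h2 v)]

theorem smul_torMat751 {R : Type*} [CommRing R] (c t n a b : R) :
    c • torMat t n a b = torMat t n (c * a) (c * b) := by
  unfold torMat
  ext i j
  fin_cases i <;> fin_cases j <;> simp <;> ring

/-- **Adelic Hilbert 90** in torus coordinates: every `m ∈ T¹(𝔸_K)` is `x² / N(x)` with
`x ∈ T(𝔸_K)`. -/
theorem adelicHilbert90_751 (t n : K) (hd : t ^ 2 - 4 * n ≠ 0) (m : A0.G K)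
    (hm : InTorus1 t n m) :
    ∃ x : A0.G K, InTorus t n x ∧
      (x : Matrix (Fin 2) (Fin 2) (A0.Adl K)) * (x : Matrix (Fin 2) (Fin 2) (A0.Adl K))
        = ((Matrix.GeneralLinearGroup.det x : (A0.Adl K)ˣ) : A0.Adl K)
            • (m : Matrix (Fin 2) (Fin 2) (A0.Adl K)) := by
  classical
  obtain ⟨⟨a, b, hab⟩, hdet⟩ := hm
  set T : A0.Adl K := algebraMap K (A0.Adl K) t with hT
  set Nn : A0.Adl K := algebraMap K (A0.Adl K) n with hNn
  have hN : a ^ 2 + T * a * b + Nn * b ^ 2 = 1 := by
    have h1 : ((Matrix.GeneralLinearGroup.det m : (A0.Adl K)ˣ) : A0.Adl K) = 1 := by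
      rw [hdet]; rfl
    rw [Matrix.GeneralLinearGroup.val_det_apply, hab, torMat_det_h546] at h1
    linear_combination h1
  -- the discriminant is a unit adele
  set Dinv : A0.Adl K := algebraMap K (A0.Adl K) (t ^ 2 - 4 * n)⁻¹ with hDinv
  have hDD : (T ^ 2 - 4 * Nn) * Dinv = 1 := by
    have : T ^ 2 - 4 * Nn = algebraMap K (A0.Adl K) (t ^ 2 - 4 * n) := by
      rw [hT, hNn]; simp only [map_sub, map_pow, map_mul, map_ofNat]
    rw [this, hDinv, ← map_mul, mul_inv_cancel₀ hd, map_one]
  set A₁ : A0.Adl K := 2 + 2 * a + T * b with hA₁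
  set A₂ : A0.Adl K := a * (T ^ 2 - 4 * Nn) + Nn * (2 + 2 * a + T * b) with hA₂
  -- the idempotent
  have hge : ∀ᶠ v : HeightOneSpectrum (𝓞 K) in Filter.cofinite,
      (if Valued.v (prFin751 v A₁) < 1 ∧ prFin751 v A₂ ≠ 0 then (1 : v.adicCompletion K) else 0)
        ∈ v.adicCompletionIntegers K := by
    refine Filter.Eventually.of_forall fun v => ?_
    split_ifs
    · exact one_mem _
    · exact zero_mem _
  set e : A0.Adl K := mkAdl751 (fun w => if prInf751 w A₁ = 0 then 1 else 0)
    (fun v => if Valued.v (prFin751 v A₁) < 1 ∧ prFin751 v A₂ ≠ 0 then 1 else 0) hge with he_def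
  have heI : ∀ w : InfinitePlace K,
      prInf751 w e = if prInf751 w A₁ = 0 then 1 else 0 := fun w => rfl
  have heF : ∀ v : HeightOneSpectrum (𝓞 K),
      prFin751 v e = if Valued.v (prFin751 v A₁) < 1 ∧ prFin751 v A₂ ≠ 0 then 1 else 0 :=
    fun v => rfl
  have he : e * e = e := by
    apply adl_ext751
    · intro w
      rw [map_mul, heI]
      split_ifs <;> simp
    · intro v
      rw [map_mul, heF]
      split_ifs <;> simp
  set p : A0.Adl K := (1 - e) * (1 + a) + e * (a * T + b * Nn) with hp
  set q : A0.Adl K := (1 - e) * b + e * (1 - a) with hq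
  set N' : A0.Adl K := (1 - e) * A₁ + e * A₂ with hN'
  have hNx : p * (p + T * q) + Nn * q * q = N' := h90_norm751 T Nn a b e he hN
  -- local facts
  have hloc : ∀ {F : Type} [Field F] (f : A0.Adl K →+* F),
      (f T) ^ 2 - 4 * f Nn ≠ 0 ∧
      (f a) ^ 2 + f T * f a * f b + f Nn * (f b) ^ 2 = 1 ∧
      f A₁ = 2 + 2 * f a + f T * f b ∧
      f A₂ = f a * ((f T) ^ 2 - 4 * f Nn) + f Nn * (2 + 2 * f a + f T * f b) := by
    intro F _ f
    refine ⟨?_, ?_, ?_, ?_⟩
    · intro h0
      have := congrArg f hDD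
      simp only [map_mul, map_sub, map_pow, map_ofNat, map_one] at this
      rw [h0, zero_mul] at this
      exact zero_ne_one this
    · have := congrArg f hN
      simpa only [map_add, map_mul, map_pow, map_one] using this
    · rw [hA₁]; simp only [map_add, map_mul, map_ofNat]
    · rw [hA₂]; simp only [map_add, map_mul, map_sub, map_pow, map_ofNat]
  have hunit : IsUnit N' := by
    apply isUnit_adl751
    · intro w
      obtain ⟨h1, h2, h3, h4⟩ := hloc (prInf751 w)
      rw [hN', map_add, map_mul, map_mul, map_sub, map_one, heI]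
      split_ifs with hc
      · rw [sub_self, zero_mul, zero_add, one_mul, h4]
        exact h90_ne_zero751 _ _ _ _ h1 h2 (by rw [← h3]; exact hc)
      · rw [sub_zero, one_mul, zero_mul, add_zero]
        exact hc
    · intro v
      obtain ⟨h1, h2, h3, h4⟩ := hloc (prFin751 v)
      rw [hN', map_add, map_mul, map_mul, map_sub, map_one, heF]
      split_ifs with hc
      · rw [sub_self, zero_mul, zero_add, one_mul]
        exact hc.2
      · rw [sub_zero, one_mul, zero_mul, add_zero]
        intro h0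
        apply hc
        refine ⟨by rw [h0, map_zero]; exact zero_lt_one, ?_⟩
        rw [h4]
        exact h90_ne_zero751 _ _ _ _ h1 h2 (by rw [← h3]; exact h0)
    · have hev := ((((eventually_integral751 a).and (eventually_integral751 b)).and
        (eventually_integral751 T)).and (eventually_integral751 Nn)).and
        ((eventually_integral751 (T ^ 2 - 4 * Nn)).and (eventually_integral751 Dinv))
      refine hev.mono fun v hv => ?_
      obtain ⟨⟨⟨⟨hva, hvb⟩, hvT⟩, hvN⟩, hvD, hvDi⟩ := hv
      obtain ⟨h1, h2, h3, h4⟩ := hloc (prFin751 v)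
      have hDu : Valued.v ((prFin751 v T) ^ 2 - 4 * prFin751 v Nn) = 1 := by
        have e1 : prFin751 v (T ^ 2 - 4 * Nn) = (prFin751 v T) ^ 2 - 4 * prFin751 v Nn := by
          simp only [map_sub, map_pow, map_mul, map_ofNat]
        rw [e1] at hvD
        have e2 : Valued.v ((prFin751 v T) ^ 2 - 4 * prFin751 v Nn) * Valued.v (prFin751 v Dinv)
            = 1 := by
          rw [← map_mul, ← e1, ← map_mul, hDD, map_one, map_one]
        refine le_antisymm hvD ?_
        calc (1 : WithZero (Multiplicative ℤ))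
            = Valued.v ((prFin751 v T) ^ 2 - 4 * prFin751 v Nn) * Valued.v (prFin751 v Dinv) :=
              e2.symm
          _ ≤ Valued.v ((prFin751 v T) ^ 2 - 4 * prFin751 v Nn) * 1 := mul_le_mul' le_rfl hvDi
          _ = _ := mul_one _
      have hA2u : Valued.v (prFin751 v A₁) < 1 → Valued.v (prFin751 v A₂) = 1 := by
        intro hlt
        rw [h4]
        exact h90_unit751 Valued.v _ _ _ _ hvT hvN hva hvb hDu h2 (by rw [← h3]; exact hlt)
      rw [hN', map_add, map_mul, map_mul, map_sub, map_one, heF]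
      split_ifs with hc
      · rw [sub_self, zero_mul, zero_add, one_mul, hA2u hc.1]
      · rw [sub_zero, one_mul, zero_mul, add_zero]
        by_contra hlt
        rw [not_le] at hlt
        apply hc
        refine ⟨hlt, ?_⟩
        intro h0
        have := hA2u hlt
        rw [h0, map_zero] at this
        exact zero_ne_one this
  -- the element
  have hdetX : (torMat T Nn p q).det = N' := by rw [torMat_det_h546, hNx]
  refine ⟨Matrix.GeneralLinearGroup.mk'' (torMat T Nn p q) (by rw [hdetX]; exact hunit),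
    ⟨p, q, rfl⟩, ?_⟩
  rw [Matrix.GeneralLinearGroup.val_det_apply]
  change torMat T Nn p q * torMat T Nn p q = (torMat T Nn p q).det • (m : Matrix _ _ _)
  rw [hab, torMat_mul_h546, smul_torMat751, torMat_det_h546]
  congr 1
  · exact h90_sq_fst751 T Nn a b e hN
  · exact h90_sq_snd751 T Nn a b e hN

end Adelic

end Fermat.Agent.LT.A2.H751

end
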