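import Mathlib
import Fermat.Agent.LT.A2.H751.Hilbert90
import Fermat.Agent.LT.T1.Spec

/-!
# Row LT, tower A2, pre-leaf TORUS-MEAS (helper751): `T¹(K) \ T¹(𝔸_K)` is compact

OFF-MAIN.  From `T1.EllipticCompactC` (centraliser of an elliptic element is compact modulo the
centre and the rational points) and the adelic Hilbert 90 (`adelicHilbert90_751`):
`φ(u) = u² / det u` kills the centre, maps `T(K)` to `T¹(K)`, is continuous, and every
`m ∈ T¹(𝔸_K)` is `φ(x)`, `x ∈ T(𝔸_K)`.
-/

set_option autoImplicit false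

open IsDedekindDomain NumberField

noncomputable section

namespace Fermat.Agent.LT.A2.H751

open Fermat.Agent.LT.H556 Fermat.Agent.LT.A2 Fermat.Agent.LT.A2.H546
open Fermat.Agent.LT

/-! ## The map `φ(u) = u² / det u` -/

section Phi

variable {R : Type*} [CommRing R]

/-- `φ(u) = u² / det u` on `GL₂(R)`. -/
def phi751 (u : GL (Fin 2) R) : GL (Fin 2) R :=
  u * u * (Matrix.GeneralLinearGroup.scalar (Fin 2) (Matrix.GeneralLinearGroup.det u))⁻¹

theorem phi_mul751 (u v : GL (Fin 2) R) (h : Commute u v) :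
    phi751 (u * v) = phi751 u * phi751 v := by
  unfold phi751
  have hs : ∀ (c : Rˣ) (A : GL (Fin 2) R),
      Commute A (Matrix.GeneralLinearGroup.scalar (Fin 2) c)⁻¹ := by
    intro c A
    apply Commute.inv_right
    exact (Matrix.GeneralLinearGroup.scalar_commute c A).symm
  rw [map_mul, map_mul, mul_inv_rev, h.symm.mul_mul_mul_comm u v,
    ((hs (Matrix.GeneralLinearGroup.det v) _).symm.eq),
    (hs (Matrix.GeneralLinearGroup.det u) (v * v)).mul_mul_mul_comm (u * u) _]

theorem det_phi751 (u : GL (Fin 2) R) : Matrix.GeneralLinearGroup.det (phi751 u) = 1 := by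
  unfold phi751
  rw [map_mul, map_mul, map_inv, Matrix.GeneralLinearGroup.det_scalar, Fintype.card_fin, sq,
    mul_inv_cancel]

theorem phi_central751 (z : GL (Fin 2) R) (c : R)
    (hz : (z : Matrix (Fin 2) (Fin 2) R) = Matrix.diagonal fun _ => c) : phi751 z = 1 := by
  unfold phi751
  rw [mul_inv_eq_one]
  apply Units.ext
  rw [Units.val_mul, Matrix.GeneralLinearGroup.coe_scalar,
    Matrix.GeneralLinearGroup.val_det_apply, hz, Matrix.diagonal_mul_diagonal,
    Matrix.det_diagonal, Fin.prod_univ_two, Matrix.scalar_apply]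

theorem phi_of_sq751 (x m : GL (Fin 2) R)
    (h : (x : Matrix (Fin 2) (Fin 2) R) * (x : Matrix (Fin 2) (Fin 2) R)
      = ((Matrix.GeneralLinearGroup.det x : Rˣ) : R) • (m : Matrix (Fin 2) (Fin 2) R)) :
    phi751 x = m := by
  unfold phi751
  rw [mul_inv_eq_iff_eq_mul, ← Matrix.GeneralLinearGroup.scalar_commute]
  apply Units.ext
  rw [Units.val_mul, Units.val_mul, h, Matrix.GeneralLinearGroup.coe_scalar, Matrix.scalar_apply,
    Matrix.smul_eq_diagonal_mul]

theorem map_phi751 {S : Type*} [CommRing S] (f : R →+* S) (u : GL (Fin 2) R) :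
    Matrix.GeneralLinearGroup.map f (phi751 u) = phi751 (Matrix.GeneralLinearGroup.map f u) := by
  unfold phi751
  rw [map_mul, map_mul, map_inv, Matrix.GeneralLinearGroup.map_scalar,
    Matrix.GeneralLinearGroup.map_det]

/-- The centraliser of `ω = [[0, -n], [1, t]]` in `M₂(R)` is `{a + b ω}`. -/
theorem torMat_of_commute751 (t n : R) (X : Matrix (Fin 2) (Fin 2) R)
    (h : X * torMat t n 0 1 = torMat t n 0 1 * X) : X = torMat t n (X 0 0) (X 1 0) := by
  have h00 := congrFun (congrFun h 0) 0
  have h10 := congrFun (congrFun h 1) 0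
  simp only [torMat, Matrix.mul_apply, Fin.sum_univ_two, Matrix.of_apply, Matrix.cons_val',
    Matrix.cons_val_zero, Matrix.cons_val_one, Matrix.empty_val', Matrix.cons_val_fin_one,
    Matrix.head_cons, Matrix.head_fin_const] at h00 h10
  unfold torMat
  ext i j
  fin_cases i <;> fin_cases j
  · simp
  · simp only [Fin.zero_eta, Fin.mk_one, Matrix.of_apply, Matrix.cons_val', Matrix.cons_val_zero,
      Matrix.cons_val_one, Matrix.empty_val', Matrix.cons_val_fin_one, Matrix.head_cons]
    linear_combination h00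
  · simp
  · simp only [Fin.mk_one, Matrix.of_apply, Matrix.cons_val', Matrix.cons_val_one,
      Matrix.empty_val', Matrix.cons_val_fin_one, Matrix.head_cons, Matrix.head_fin_const]
    linear_combination h10

end Phi


/-! ## Continuity of `φ` on `GL₂(𝔸_K)` -/

section Compact

variable {K : Type} [Field K] [NumberField K]

theorem continuous_det751 :
    Continuous (fun u : A0.G K => Matrix.GeneralLinearGroup.det u) := by
  rw [Units.continuous_iff]
  constructor
  · have : (Units.val ∘ fun u : A0.G K => Matrix.GeneralLinearGroup.det u)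
        = fun u : A0.G K => (u : Matrix (Fin 2) (Fin 2) (A0.Adl K)).det := by
      funext u
      exact Matrix.GeneralLinearGroup.val_det_apply u
    rw [this]
    exact Continuous.matrix_det Units.continuous_val
  · have : (fun u : A0.G K => (((Matrix.GeneralLinearGroup.det u)⁻¹ : (A0.Adl K)ˣ) : A0.Adl K))
        = fun u : A0.G K => ((u⁻¹ : A0.G K) : Matrix (Fin 2) (Fin 2) (A0.Adl K)).det := by
      funext u
      rw [← map_inv, Matrix.GeneralLinearGroup.val_det_apply]
    rw [this]
    exact Continuous.matrix_det (Units.continuous_val.comp continuous_inv)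

theorem continuous_scalar751 :
    Continuous (fun c : (A0.Adl K)ˣ => Matrix.GeneralLinearGroup.scalar (Fin 2) c) := by
  unfold Matrix.GeneralLinearGroup.scalar
  apply Continuous.units_map
  change Continuous fun a : A0.Adl K => Matrix.scalar (Fin 2) a
  simp only [Matrix.scalar_apply]
  exact Continuous.matrix_diagonal (continuous_pi fun _ => continuous_id)

theorem continuous_phi751 : Continuous (phi751 : A0.G K → A0.G K) := by
  unfold phi751
  exact (continuous_id.mul continuous_id).mul
    (continuous_inv.comp (continuous_scalar751.comp continuous_det751))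

/-! ## Rational points -/

theorem torMat_map751 {R S : Type*} [CommRing R] [CommRing S] (f : R →+* S) (t n a b : R) :
    (torMat t n a b).map f = torMat (f t) (f n) (f a) (f b) := by
  unfold torMat
  ext i j
  fin_cases i <;> fin_cases j <;> simp

theorem ratG_val751 (δ : GL (Fin 2) K) :
    ((T1.ratG K δ : A0.G K) : Matrix (Fin 2) (Fin 2) (A0.Adl K))
      = (δ : Matrix (Fin 2) (Fin 2) K).map (algebraMap K (A0.Adl K)) := rfl

theorem inTorusRat_ratG751 (t n : K) (δ : GL (Fin 2) K) (p r : K)
    (h : (δ : Matrix (Fin 2) (Fin 2) K) = torMat t n p r) : InTorusRat t n (T1.ratG K δ) :=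
  ⟨p, r, by rw [ratG_val751, h, torMat_map751]⟩

/-- The generator `ω` in `GL₂(K)`. -/
def omegaK751 (t n : K) (hn : n ≠ 0) : GL (Fin 2) K :=
  Matrix.GeneralLinearGroup.mkOfDetNeZero (torMat t n 0 1)
    (by rw [torMat_det_h546]; simpa using hn)

theorem omegaK_val751 (t n : K) (hn : n ≠ 0) :
    (omegaK751 t n hn : Matrix (Fin 2) (Fin 2) K) = torMat t n 0 1 := rfl

theorem irreducible_charpoly_omegaK751 (t n : K) (hn : n ≠ 0)
    (hirr : ∀ x : K, x ^ 2 - t * x + n ≠ 0) :
    Irreducible (omegaK751 t n hn : Matrix (Fin 2) (Fin 2) K).charpoly := by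
  apply Polynomial.irreducible_of_degree_le_three_of_not_isRoot
  · rw [Matrix.charpoly_natDegree_eq_dim, Fintype.card_fin]
    decide
  · intro x hx
    apply hirr x
    rw [Polynomial.IsRoot, Matrix.charpoly_fin_two, omegaK_val751] at hx
    have htr : (torMat t n 0 1).trace = t := by
      simp [torMat, Matrix.trace_fin_two]
    have hdt : (torMat t n 0 1).det = n := by
      rw [torMat_det_h546]; ring
    rw [htr, hdt] at hx
    simpa using hx

/-- **`T¹(K) \ T¹(𝔸_K)` is compact** (from `T1.EllipticCompactC`). -/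
theorem torus1_cocompact751 (t n : K) (hirr : ∀ x : K, x ^ 2 - t * x + n ≠ 0)
    (hE : T1.EllipticCompactC K) :
    ∃ C : Set (A0.G K), IsCompact C ∧ ∀ m : A0.G K, InTorus1 t n m →
      ∃ y : A0.G K, InTorusRat t n y ∧ InTorus1 t n y ∧ y * m ∈ C := by
  have hn : n ≠ 0 := by simpa using hirr 0
  have hd : t ^ 2 - 4 * n ≠ 0 := by
    intro h
    apply hirr (t / 2)
    field_simp
    linear_combination (-1 : K) * h
  obtain ⟨C, hC, hcov⟩ := hE (omegaK751 t n hn) (irreducible_charpoly_omegaK751 t n hn hirr)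
  refine ⟨phi751 '' C, hC.image continuous_phi751, ?_⟩
  intro m hm
  obtain ⟨x, hxT, hxsq⟩ := adelicHilbert90_751 t n hd m hm
  have hγT : InTorusRat t n (T1.ratG K (omegaK751 t n hn)) :=
    inTorusRat_ratG751 t n _ 0 1 (omegaK_val751 t n hn)
  have hcomm : x * T1.ratG K (omegaK751 t n hn) = T1.ratG K (omegaK751 t n hn) * x :=
    inTorus_comm_h546 hxT (inTorus_of_rat_h546 hγT)
  obtain ⟨z, δ, c, hz, hδ, hcC, hx⟩ := hcov x hcomm
  obtain ⟨c₀, hz0⟩ := hz
  have hm_eq : m = phi751 x := (phi_of_sq751 x m hxsq).symm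
  -- `δ` is a rational torus element
  have hδv : (δ : Matrix (Fin 2) (Fin 2) K)
      = torMat t n ((δ : Matrix (Fin 2) (Fin 2) K) 0 0) ((δ : Matrix (Fin 2) (Fin 2) K) 1 0) := by
    apply torMat_of_commute751
    have := congrArg Units.val hδ
    rwa [Units.val_mul, Units.val_mul, omegaK_val751] at this
  have hδT : InTorusRat t n (T1.ratG K δ) := inTorusRat_ratG751 t n δ _ _ hδv
  -- `z` is central and in the torus
  have hzc : ∀ A : A0.G K, Commute z A := by
    intro A
    apply Units.ext
    rw [Units.val_mul, Units.val_mul, hz0, ← Matrix.scalar_apply]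
    exact (Matrix.scalar_commute c₀ (fun r => Commute.all _ _) _).eq
  have hzT : InTorus t n z := by
    refine ⟨c₀, 0, ?_⟩
    rw [hz0]
    unfold torMat
    ext i j
    fin_cases i <;> fin_cases j <;> simp
  have hcT : InTorus t n c := by
    have hc : c = (z * T1.ratG K δ)⁻¹ * x := by rw [hx]; group
    rw [hc]
    exact inTorus_mul_h546
      (inTorus_inv_h546 (inTorus_mul_h546 hzT (inTorus_of_rat_h546 hδT))) hxT
  have hcc : Commute (z * T1.ratG K δ) c :=
    inTorus_comm_h546 (inTorus_mul_h546 hzT (inTorus_of_rat_h546 hδT)) hcT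
  have h1 : phi751 x = phi751 (T1.ratG K δ) * phi751 c := by
    rw [hx, phi_mul751 _ _ hcc, phi_mul751 _ _ (hzc _), phi_central751 z c₀ hz0, one_mul]
  -- the rational point
  have hy'R : InTorusRat t n (phi751 (T1.ratG K δ)) := by
    have e : phi751 (T1.ratG K δ) = T1.ratG K (phi751 δ) := (map_phi751 _ δ).symm
    have hδc : Commute δ (omegaK751 t n hn) := hδ
    have hc' : Commute (phi751 δ) (omegaK751 t n hn) := by
      unfold phi751
      refine Commute.mul_left (Commute.mul_left hδc hδc) ?_
      apply Commute.inv_left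
      exact Matrix.GeneralLinearGroup.scalar_commute _ _
    have hv : ((phi751 δ : GL (Fin 2) K) : Matrix (Fin 2) (Fin 2) K)
        = torMat t n (((phi751 δ : GL (Fin 2) K) : Matrix (Fin 2) (Fin 2) K) 0 0)
            (((phi751 δ : GL (Fin 2) K) : Matrix (Fin 2) (Fin 2) K) 1 0) := by
      apply torMat_of_commute751
      have := congrArg Units.val hc'.eq
      rwa [Units.val_mul, Units.val_mul, omegaK_val751] at this
    rw [e]
    exact inTorusRat_ratG751 t n _ _ _ hv
  have hy'1 : InTorus1 t n (phi751 (T1.ratG K δ)) :=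
    ⟨inTorus_of_rat_h546 hy'R, det_phi751 _⟩
  refine ⟨(phi751 (T1.ratG K δ))⁻¹, inTorusRat_inv_h546 hy'R hy'1.2,
    inTorus1_inv_h546 hy'1, ?_⟩
  rw [hm_eq, h1, inv_mul_cancel_left]
  exact ⟨c, hcC, rfl⟩

end Compact

end Fermat.Agent.LT.A2.H751

end
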