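import Mathlib
import Fermat.Agent.LT.A2.H751.TorusCompact
import Fermat.Agent.LT.A2.H751.MeanOfWhit
import Fermat.Agent.LT.T1.H558.FundDomAbs

/-!
# Row LT, tower A2, pre-leaf TORUS-MEAS (helper751): the torus fields of `KData.IsMeasured`

OFF-MAIN.  `torusMeas751`: for `X² - tX + n` without root in `K`, from `T1.LocCompC`,
`T1.DiscreteC` and `T1.EllipticCompactC` there are a measure `μT` on `GL₂(𝔸_K)` and a set `DT`
with the eight torus fields of `KData.IsMeasured` (helper950, `LT/A2/Kernel.lean`), VERBATIM: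

* `μT` = image of a Haar measure of the closed subgroup `T¹(𝔸_K)`;
* `DT` = strict Borel fundamental domain of `T¹(K)` inside a compact set
  (`torus1_cocompact751` + helper558 `exists_strict_fundDom558`).

`covolOne751`: a Haar measure of `𝔸_K` of covolume one, from `T1.AddFundDomC`.
`isMeasured_of751`: the two together give `KData.IsMeasured`.
-/

set_option autoImplicit false

open IsDedekindDomain NumberField MeasureTheory
open scoped Topology

noncomputable section

namespace Fermat.Agent.LT.A2.H751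

open Fermat.Agent.LT.H556 Fermat.Agent.LT.A2 Fermat.Agent.LT.A2.H546
open Fermat.Agent.LT

variable {K : Type} [Field K] [NumberField K]

/-- **The eight torus fields of `KData.IsMeasured`** for the coordinates `t`, `n`. -/
structure TorusMeasured751 (t n : K) (μT : @Measure (A0.G K) (borel (A0.G K)))
    (DT : Set (A0.G K)) : Prop where
  carried : μT {m | ¬ InTorus1 t n m} = 0
  inv : ∀ m' : A0.G K, InTorus1 t n m' → ∀ S : Set (A0.G K),
    μT ((fun m => m' * m) '' S) = μT S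
  compact_lt : ∀ C : Set (A0.G K), IsCompact C → μT C < ⊤
  open_pos : ∀ U : Set (A0.G K), IsOpen U → (∃ m, m ∈ U ∧ InTorus1 t n m) → 0 < μT U
  dom_sub : ∀ m ∈ DT, InTorus1 t n m
  dom_meas : @MeasurableSet (A0.G K) (borel (A0.G K)) DT
  dom_compact : ∃ C : Set (A0.G K), IsCompact C ∧ DT ⊆ C
  dom_fund : ∀ m : A0.G K, InTorus1 t n m →
    ∃! y : A0.G K, InTorusRat t n y ∧ InTorus1 t n y ∧ y * m ∈ DT

/-- The torus fields and a measure of covolume one give `KData.IsMeasured`. -/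
theorem isMeasured_of751 (D : KData K) (h1 : IsCovolOne D.μ)
    (h2 : TorusMeasured751 D.t D.n D.μT D.DT) : D.IsMeasured :=
  ⟨h1, h2.carried, h2.inv, h2.compact_lt, h2.open_pos, h2.dom_sub, h2.dom_meas, h2.dom_compact,
    h2.dom_fund⟩

/-! ## The subgroups -/

/-- `T¹(𝔸_K)` as a subgroup of `GL₂(𝔸_K)`. -/
def torus1Sub751 (t n : K) : Subgroup (A0.G K) where
  carrier := {m | InTorus1 t n m}
  mul_mem' := fun h h' => inTorus1_mul_h546 h h'
  one_mem' := inTorus1_one_h546 t n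
  inv_mem' := fun h => inTorus1_inv_h546 h

/-- `T¹(K)` as a subgroup of `GL₂(𝔸_K)`. -/
def torus1Rat751 (t n : K) : Subgroup (A0.G K) where
  carrier := {y | InTorusRat t n y ∧ InTorus1 t n y}
  mul_mem' := fun h h' => ⟨inTorusRat_mul_h546 h.1 h'.1, inTorus1_mul_h546 h.2 h'.2⟩
  one_mem' := ⟨inTorusRat_one_h546 t n, inTorus1_one_h546 t n⟩
  inv_mem' := fun h => ⟨inTorusRat_inv_h546 h.1 h.2.2, inTorus1_inv_h546 h.2⟩

theorem mem_torus1Sub751 (t n : K) (m : A0.G K) : m ∈ torus1Sub751 t n ↔ InTorus1 t n m :=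
  Iff.rfl

theorem mem_torus1Rat751 (t n : K) (y : A0.G K) :
    y ∈ torus1Rat751 t n ↔ InTorusRat t n y ∧ InTorus1 t n y := Iff.rfl

/-- `InTorus` in entry form. -/
theorem inTorus_iff751 (t n : K) (m : A0.G K) : InTorus t n m ↔
    (m : Matrix (Fin 2) (Fin 2) (A0.Adl K)) 0 1
        = -(algebraMap K (A0.Adl K) n * (m : Matrix (Fin 2) (Fin 2) (A0.Adl K)) 1 0) ∧
      (m : Matrix (Fin 2) (Fin 2) (A0.Adl K)) 1 1
        = (m : Matrix (Fin 2) (Fin 2) (A0.Adl K)) 0 0
          + algebraMap K (A0.Adl K) t * (m : Matrix (Fin 2) (Fin 2) (A0.Adl K)) 1 0 := by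
  constructor
  · rintro ⟨a, b, h⟩
    rw [h]
    simp [torMat]
  · rintro ⟨h1, h2⟩
    refine ⟨(m : Matrix (Fin 2) (Fin 2) (A0.Adl K)) 0 0,
      (m : Matrix (Fin 2) (Fin 2) (A0.Adl K)) 1 0, ?_⟩
    unfold torMat
    ext i j
    fin_cases i <;> fin_cases j
    · simp
    · simpa using h1
    · simp
    · simpa using h2

theorem isClosed_torus1_751 [T2Space (A0.Adl K)] (t n : K) :
    IsClosed {m : A0.G K | InTorus1 t n m} := by
  have hent : ∀ i j : Fin 2,
      Continuous fun m : A0.G K => (m : Matrix (Fin 2) (Fin 2) (A0.Adl K)) i j :=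
    fun i j => Continuous.matrix_elem Units.continuous_val i j
  have hset : {m : A0.G K | InTorus1 t n m}
      = {m : A0.G K | (m : Matrix (Fin 2) (Fin 2) (A0.Adl K)) 0 1
            = -(algebraMap K (A0.Adl K) n * (m : Matrix (Fin 2) (Fin 2) (A0.Adl K)) 1 0)}
        ∩ {m : A0.G K | (m : Matrix (Fin 2) (Fin 2) (A0.Adl K)) 1 1
            = (m : Matrix (Fin 2) (Fin 2) (A0.Adl K)) 0 0
              + algebraMap K (A0.Adl K) t * (m : Matrix (Fin 2) (Fin 2) (A0.Adl K)) 1 0}
        ∩ {m : A0.G K | (m : Matrix (Fin 2) (Fin 2) (A0.Adl K)).det = 1} := by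
    ext m
    simp only [Set.mem_setOf_eq, Set.mem_inter_iff, InTorus1, inTorus_iff751]
    constructor
    · rintro ⟨⟨h1, h2⟩, h3⟩
      refine ⟨⟨h1, h2⟩, ?_⟩
      rw [← Matrix.GeneralLinearGroup.val_det_apply, h3]
      rfl
    · rintro ⟨⟨h1, h2⟩, h3⟩
      refine ⟨⟨h1, h2⟩, ?_⟩
      apply Units.ext
      rw [Matrix.GeneralLinearGroup.val_det_apply, h3]
      rfl
  rw [hset]
  refine (IsClosed.inter ?_ ?_).inter ?_
  · exact isClosed_eq (hent 0 1) ((continuous_const.mul (hent 1 0)).neg)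
  · exact isClosed_eq (hent 1 1) ((hent 0 0).add (continuous_const.mul (hent 1 0)))
  · exact isClosed_eq (Continuous.matrix_det Units.continuous_val) continuous_const


/-! ## The measure -/

section Measure

/-- The image of a Haar measure of the closed subgroup `T¹(𝔸_K)`. -/
theorem torusHaar751 (t n : K) (hLC : T1.LocCompC K) :
    ∃ μT : @Measure (A0.G K) (borel (A0.G K)),
      μT {m | ¬ InTorus1 t n m} = 0 ∧
      (∀ m' : A0.G K, InTorus1 t n m' → ∀ S : Set (A0.G K),
        μT ((fun m => m' * m) '' S) = μT S) ∧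
      (∀ C : Set (A0.G K), IsCompact C → μT C < ⊤) ∧
      (∀ U : Set (A0.G K), IsOpen U → (∃ m, m ∈ U ∧ InTorus1 t n m) → 0 < μT U) := by
  obtain ⟨⟨hlcA, ht2A, hscA⟩, hlcG, ht2G, hscG⟩ := hLC
  letI : MeasurableSpace (A0.G K) := borel (A0.G K)
  haveI : BorelSpace (A0.G K) := ⟨rfl⟩
  have hcl : IsClosed ((torus1Sub751 t n : Subgroup (A0.G K)) : Set (A0.G K)) :=
    isClosed_torus1_751 t n
  haveI : LocallyCompactSpace (torus1Sub751 t n) := hcl.locallyCompactSpace
  set μH : Measure (torus1Sub751 t n) := Measure.haar with hμH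
  have hemb : MeasurableEmbedding (Subtype.val : torus1Sub751 t n → A0.G K) :=
    MeasurableEmbedding.subtype_coe hcl.measurableSet
  refine ⟨Measure.map Subtype.val μH, ?_, ?_, ?_, ?_⟩
  · rw [hemb.map_apply]
    have : (Subtype.val : torus1Sub751 t n → A0.G K) ⁻¹' {m | ¬ InTorus1 t n m} = ∅ := by
      ext ⟨m, hm⟩
      simp only [Set.mem_preimage, Set.mem_setOf_eq, Set.mem_empty_iff_false, iff_false,
        not_not]
      exact hm
    rw [this, measure_empty]
  · intro m' hm' S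
    rw [hemb.map_apply, hemb.map_apply]
    have : (Subtype.val : torus1Sub751 t n → A0.G K) ⁻¹' ((fun m => m' * m) '' S)
        = (fun h : torus1Sub751 t n => (⟨m', hm'⟩ : torus1Sub751 t n)⁻¹ * h) ⁻¹'
            (Subtype.val ⁻¹' S) := by
      ext ⟨h, hh⟩
      simp only [Set.mem_preimage, Set.mem_image]
      constructor
      · rintro ⟨s, hs, hsh⟩
        have e : s = m'⁻¹ * h := by rw [← hsh]; group
        rw [e] at hs
        exact hs
      · intro hs
        refine ⟨m'⁻¹ * h, hs, ?_⟩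
        change m' * (m'⁻¹ * h) = h
        group
    rw [this, measure_preimage_mul]
  · intro C hC
    rw [hemb.map_apply]
    exact (hcl.isClosedEmbedding_subtypeVal.isCompact_preimage hC).measure_lt_top
  · rintro U hU ⟨m, hmU, hm⟩
    rw [hemb.map_apply]
    exact (hU.preimage continuous_subtype_val).measure_pos μH ⟨⟨m, hm⟩, hmU⟩

end Measure

/-! ## The fundamental domain -/

section FundDom

theorem nontrivial_adl751 (K : Type) [Field K] [NumberField K] : Nontrivial (A0.Adl K) := by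
  obtain ⟨w⟩ := (inferInstance : Nonempty (InfinitePlace K))
  refine ⟨⟨1, 0, fun h => ?_⟩⟩
  have := congrArg (prInf751 w) h
  rw [map_one, map_zero] at this
  exact one_ne_zero this

theorem countable_torus1Rat751 (t n : K) : Countable (torus1Rat751 t n) := by
  classical
  haveI := countable_numberField751 K
  have hex : ∀ y : torus1Rat751 t n, ∃ p : K × K,
      ((y : A0.G K) : Matrix (Fin 2) (Fin 2) (A0.Adl K))
        = torMat (algebraMap K (A0.Adl K) t) (algebraMap K (A0.Adl K) n)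
            (algebraMap K (A0.Adl K) p.1) (algebraMap K (A0.Adl K) p.2) := by
    rintro ⟨y, ⟨a, b, h⟩, -⟩
    exact ⟨(a, b), h⟩
  choose f hf using hex
  have hinj : Function.Injective f := by
    intro y y' h
    apply Subtype.ext
    apply Units.ext
    rw [hf y, hf y', h]
  exact hinj.countable

theorem torus1Rat_le_gam751 (t n : K) : torus1Rat751 t n ≤ T1.Gam K := by
  rintro y ⟨⟨a, b, h⟩, -, hdet⟩
  haveI := nontrivial_adl751 K
  have hinj : Function.Injective (algebraMap K (A0.Adl K)) := (algebraMap K (A0.Adl K)).injective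
  have hd1 : ((Matrix.GeneralLinearGroup.det y : (A0.Adl K)ˣ) : A0.Adl K) = 1 := by
    rw [hdet]; rfl
  rw [Matrix.GeneralLinearGroup.val_det_apply, h, torMat_det_h546] at hd1
  have hdK : (torMat t n a b).det = 1 := by
    rw [torMat_det_h546]
    apply hinj
    rw [map_one, ← hd1]
    simp only [map_add, map_mul]
  refine ⟨Matrix.GeneralLinearGroup.mkOfDetNeZero (torMat t n a b)
    (by rw [hdK]; exact one_ne_zero), ?_⟩
  apply Units.ext
  rw [ratG_val751, h, ← torMat_map751]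
  rfl

theorem discrete_torus1Rat751 (t n : K) (hD : T1.DiscreteC K) :
    DiscreteTopology (torus1Rat751 t n) := by
  haveI : DiscreteTopology (T1.Gam K) := hD.1
  exact DiscreteTopology.of_continuous_injective
    (f := Subgroup.inclusion (torus1Rat_le_gam751 t n))
    (continuous_inclusion (torus1Rat_le_gam751 t n))
    (Subgroup.inclusion_injective (torus1Rat_le_gam751 t n))

/-- **TORUS-MEAS.**  The eight torus fields of `KData.IsMeasured`. -/
theorem torusMeas751 (t n : K) (hirr : ∀ x : K, x ^ 2 - t * x + n ≠ 0)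
    (hLC : T1.LocCompC K) (hD : T1.DiscreteC K) (hE : T1.EllipticCompactC K) :
    ∃ (μT : @Measure (A0.G K) (borel (A0.G K))) (DT : Set (A0.G K)),
      TorusMeasured751 t n μT DT := by
  obtain ⟨μT, h1, h2, h3, h4⟩ := torusHaar751 t n hLC
  obtain ⟨C, hC, hcov⟩ := torus1_cocompact751 t n hirr hE
  obtain ⟨⟨hlcA, ht2A, hscA⟩, hlcG, ht2G, hscG⟩ := hLC
  letI : MeasurableSpace (A0.G K) := borel (A0.G K)
  haveI : BorelSpace (A0.G K) := ⟨rfl⟩
  haveI := countable_torus1Rat751 t n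
  haveI := discrete_torus1Rat751 t n hD
  have hX : MeasurableSet {m : A0.G K | InTorus1 t n m} := (isClosed_torus1_751 t n).measurableSet
  obtain ⟨F, hFm, hFsub, hFu⟩ := T1.H558.exists_strict_fundDom558 (torus1Rat751 t n)
    {m : A0.G K | InTorus1 t n m} C hX hC.isClosed.measurableSet
    (fun γ g hg => inTorus1_mul_h546 γ.2.2 hg)
    (fun g hg => by
      obtain ⟨y, hy1, hy2, hy3⟩ := hcov g hg
      exact ⟨⟨y, hy1, hy2⟩, hy3⟩)
  refine ⟨μT, F, h1, h2, h3, h4, fun m hm => (hFsub hm).2, hFm,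
    ⟨C, hC, fun m hm => (hFsub hm).1⟩, ?_⟩
  intro m hm
  obtain ⟨γ, hγ, hγu⟩ := hFu m hm
  refine ⟨(γ : A0.G K), ⟨γ.2.1, γ.2.2, hγ⟩, ?_⟩
  rintro y ⟨hy1, hy2, hy3⟩
  have := hγu ⟨y, hy1, hy2⟩ hy3
  exact congrArg Subtype.val this

end FundDom


/-! ## The measure of covolume one on `𝔸_K` -/

section Covol

/-- **A Haar measure of `𝔸_K` of covolume one** (from `T1.LocCompC`, `T1.AddFundDomC`). -/
theorem covolOne751 (K : Type) [Field K] [NumberField K] (hLC : T1.LocCompC K)
    (hAF : T1.AddFundDomC K) :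
    ∃ μ : @Measure (A0.Adl K) (borel (A0.Adl K)), IsCovolOne μ := by
  obtain ⟨⟨hlcA, ht2A, hscA⟩, -⟩ := hLC
  letI : MeasurableSpace (A0.Adl K) := borel (A0.Adl K)
  haveI : BorelSpace (A0.Adl K) := ⟨rfl⟩
  haveI := countable_numberField751 K
  haveI : Countable (T1.princ K) := by
    have : Function.Surjective (fun x : K => (⟨algebraMap K (A0.Adl K) x, ⟨x, rfl⟩⟩ : T1.princ K)) := by
      rintro ⟨y, x, rfl⟩
      exact ⟨x, rfl⟩
    exact this.countable
  set μ₀ : Measure (A0.Adl K) := Measure.addHaar with hμ₀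
  obtain ⟨D₀, hD₀m, hD₀f, -, hpos, hfin⟩ := hAF μ₀ inferInstance
  have hc0 : (μ₀ D₀)⁻¹ ≠ 0 := ENNReal.inv_ne_zero.mpr hfin.ne
  have hct : (μ₀ D₀)⁻¹ ≠ ⊤ := ENNReal.inv_ne_top.mpr hpos.ne'
  haveI hH : ((μ₀ D₀)⁻¹ • μ₀).IsAddHaarMeasure := Measure.IsAddHaarMeasure.smul μ₀ hc0 hct
  refine ⟨(μ₀ D₀)⁻¹ • μ₀, hH, ?_⟩
  intro S hS
  have hD₀' : IsAddFundamentalDomain (T1.princ K) D₀ ((μ₀ D₀)⁻¹ • μ₀) :=
    hD₀f.mono (Measure.AbsolutelyContinuous.smul_left (Measure.AbsolutelyContinuous.refl _) _)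
  have hS' : IsAddFundamentalDomain (T1.princ K) S ((μ₀ D₀)⁻¹ • μ₀) := hS
  rw [hS'.measure_eq hD₀', Measure.smul_apply, smul_eq_mul, ENNReal.inv_mul_cancel hpos.ne' hfin.ne]

end Covol


/-! ## Packaged forms -/

section Pack

/-- Both measures from the output of tower T1. -/
theorem exists_measured751 (t n : K) (hirr : ∀ x : K, x ^ 2 - t * x + n ≠ 0)
    (hT1 : T1.T1Out K) :
    ∃ (μ : @Measure (A0.Adl K) (borel (A0.Adl K))) (μT : @Measure (A0.G K) (borel (A0.G K)))
      (DT : Set (A0.G K)), IsCovolOne μ ∧ TorusMeasured751 t n μT DT := by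
  obtain ⟨μ, hμ⟩ := covolOne751 K hT1.locComp hT1.addFundDom
  obtain ⟨μT, DT, h⟩ := torusMeas751 t n hirr hT1.locComp hT1.discrete hT1.ellipticCompact
  exact ⟨μ, μT, DT, hμ, h⟩

/-- **`KData.IsMeasured` can always be arranged**: for any torus character, additive character,
Weil family and eigensystem there are measures and a fundamental domain making the data
measured. -/
theorem exists_isMeasured751 (t n : K) (hirr : ∀ x : K, x ^ 2 - t * x + n ≠ 0)
    (hT1 : T1.T1Out K) (χT : A0.G K → ℂ) (ψ : A0.Adl K → ℂ)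
    (F : A0.G K → A0.G K → A0.Adl K × A0.Adl K → ℂ) (π : AutomorphicForm.HeckeEigensystem K ℂ) :
    ∃ D : KData K, D.t = t ∧ D.n = n ∧ D.χT = χT ∧ D.ψ = ψ ∧ D.F = F ∧ D.π = π ∧
      D.IsMeasured := by
  obtain ⟨μ, μT, DT, hμ, h⟩ := exists_measured751 t n hirr hT1
  exact ⟨⟨t, n, χT, ψ, μ, μT, DT, F, π⟩, rfl, rfl, rfl, rfl, rfl, rfl,
    isMeasured_of751 _ hμ h⟩

end Pack

end Fermat.Agent.LT.A2.H751

end
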